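import Fermat.Agent.S55.G.Rec.WA118.Fixed
import Fermat.Agent.S14.H714.Trans

/-!
# S55 / layer G / block REC, leaf G3 (weak approximation), part 2 (helper118):
the absolute values `x ↦ ‖ι_q (g⁻¹ x)‖` on `ℚ̄` and on the fixed field of `U`

* `av q g : AbsoluteValue ℚ̄ ℝ`, `avK q g U : AbsoluteValue (fixK U) ℝ`;
* ultrametric inequality, values on natural numbers, algebraic integers;
* `exists_eq_mul_of_isEquiv` : if `avK q g U` and `avK q g' U` are equivalent then
  `g' ∈ U g D_q`;
* `not_isEquiv_of_mem_reps` : distinct double coset representatives give inequivalent absolute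
  values.
-/

set_option autoImplicit false
set_option linter.style.haveILetI false
set_option linter.unusedSectionVars false

open scoped Pointwise

namespace Fermat.Agent.S55.G.Rec.WA118

open Fermat.Agent.S55.G.Rec

local notation "Qb" => AlgebraicClosure ℚ
local notation "GQ" => (AlgebraicClosure ℚ ≃ₐ[ℚ] AlgebraicClosure ℚ)

variable (q : ℕ) [Fact q.Prime]

/-- The embedding `ι_q ∘ g⁻¹ : ℚ̄ → ℚ̄_q`. -/
noncomputable def emb (g : GQ) : Qb →+* PadicAlgCl q :=
  ((padicEmbedding q : Qb →ₐ[ℚ] PadicAlgCl q) : Qb →+* PadicAlgCl q).comp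
    ((g⁻¹ : GQ) : Qb →+* Qb)

theorem emb_apply (g : GQ) (x : Qb) : emb q g x = padicEmbedding q ((g⁻¹ : GQ) x) := rfl

theorem emb_injective (g : GQ) : Function.Injective (emb q g) := (emb q g).injective

theorem emb_ratCast (g : GQ) (c : ℚ) : emb q g (c : Qb) = (c : PadicAlgCl q) := map_ratCast _ c

theorem emb_natCast (g : GQ) (n : ℕ) : emb q g (n : Qb) = (n : PadicAlgCl q) := map_natCast _ n

theorem emb_intCast (g : GQ) (n : ℤ) : emb q g (n : Qb) = (n : PadicAlgCl q) := map_intCast _ n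

theorem locPushMul_coe_eq_emb (g : GQ) (x : Qbˣ) :
    ((locPushMul q g x : (PadicAlgCl q)ˣ) : PadicAlgCl q) = emb q g (x : Qb) := rfl

/-- The absolute value `x ↦ ‖ι_q (g⁻¹ x)‖` on `ℚ̄`. -/
noncomputable def av (g : GQ) : AbsoluteValue Qb ℝ :=
  (NormedField.toAbsoluteValue (PadicAlgCl q)).comp (emb_injective q g)

theorem av_apply (g : GQ) (x : Qb) : av q g x = ‖emb q g x‖ := rfl

theorem av_add_le_max (g : GQ) (x y : Qb) : av q g (x + y) ≤ max (av q g x) (av q g y) := by
  rw [av_apply, av_apply, av_apply, map_add]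
  exact PadicAlgCl.isNonarchimedean q _ _

theorem av_sub_le_max (g : GQ) (x y : Qb) : av q g (x - y) ≤ max (av q g x) (av q g y) := by
  have h := av_add_le_max q g x (-y)
  rwa [← sub_eq_add_neg, AbsoluteValue.map_neg] at h

/-- If `av (x - y) < av y` then `av x = av y`. -/
theorem av_eq_of_sub_lt (g : GQ) {x y : Qb} (h : av q g (x - y) < av q g y) :
    av q g x = av q g y := by
  apply le_antisymm
  · have h1 := av_add_le_max q g (x - y) y
    rw [sub_add_cancel] at h1
    exact h1.trans (max_le h.le le_rfl)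
  · by_contra hlt
    rw [not_le] at hlt
    have h1 := av_sub_le_max q g x (x - y)
    rw [sub_sub_cancel] at h1
    have h2 : max (av q g x) (av q g (x - y)) < av q g y := max_lt hlt h
    exact lt_irrefl _ (h1.trans_lt h2)

theorem norm_natCast_padicAlgCl (n : ℕ) : ‖(n : PadicAlgCl q)‖ = ‖(n : ℚ_[q])‖ := by
  rw [← PadicAlgCl.norm_extends q (n : ℚ_[q]), map_natCast]

theorem norm_intCast_padicAlgCl (n : ℤ) : ‖(n : PadicAlgCl q)‖ = ‖(n : ℚ_[q])‖ := by
  rw [← PadicAlgCl.norm_extends q (n : ℚ_[q]), map_intCast]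

theorem av_natCast (g : GQ) (n : ℕ) : av q g (n : Qb) = ‖(n : ℚ_[q])‖ := by
  rw [av_apply, emb_natCast, norm_natCast_padicAlgCl]

theorem av_intCast (g : GQ) (n : ℤ) : av q g (n : Qb) = ‖(n : ℚ_[q])‖ := by
  rw [av_apply, emb_intCast, norm_intCast_padicAlgCl]

theorem av_self (g : GQ) : av q g (q : Qb) = (q : ℝ)⁻¹ := by
  rw [av_natCast]
  exact Padic.norm_p

theorem av_self_lt_one (g : GQ) : av q g (q : Qb) < 1 := by
  rw [av_self]
  have : (1 : ℝ) < q := by exact_mod_cast (Fact.out : q.Prime).one_lt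
  exact inv_lt_one_of_one_lt₀ this

theorem av_natCast_le_one (g : GQ) (n : ℕ) : av q g (n : Qb) ≤ 1 := by
  rw [av_natCast]
  exact_mod_cast Padic.norm_int_le_one (p := q) (n : ℤ)

theorem av_intCast_le_one (g : GQ) (n : ℤ) : av q g (n : Qb) ≤ 1 := by
  rw [av_intCast]
  exact Padic.norm_int_le_one n

theorem av_natCast_eq_one (g : GQ) {n : ℕ} (h : q.Coprime n) : av q g (n : Qb) = 1 := by
  rw [av_natCast]
  exact Padic.norm_natCast_eq_one_iff.mpr h

/-- The unit ball of `av q g` is the valuation subring `g • padicPlace q`. -/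
theorem av_le_one_iff (g : GQ) (x : Qb) : av q g x ≤ 1 ↔ x ∈ g • padicPlace q := by
  rw [ValuationSubring.mem_pointwise_smul_iff_inv_smul_mem, mem_padicPlace_iff, av_apply,
    emb_apply, ← NNReal.coe_le_coe, coe_nnnorm, NNReal.coe_one]
  rfl

/-- Algebraic integers have absolute value at most `1`. -/
theorem av_le_one_of_isIntegral (g : GQ) {x : Qb} (hx : IsIntegral ℤ x) : av q g x ≤ 1 :=
  (av_le_one_iff q g x).mpr (Fermat.Agent.S14.H714.mem_of_isIntegral _ hx)

theorem natCast_mem_nonunits (g : GQ) : (q : Qb) ∈ (g • padicPlace q).nonunits := by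
  rw [ValuationSubring.mem_nonunits_iff_or]
  right
  rw [← av_le_one_iff, map_inv₀, av_self, inv_inv, not_le]
  exact_mod_cast (Fact.out : q.Prime).one_lt

/-- The absolute value on the fixed field of `U`. -/
noncomputable def avK (g : GQ) (U : Subgroup GQ) : AbsoluteValue (fixK U) ℝ :=
  (av q g).comp (f := algebraMap (fixK U) Qb) (algebraMap (fixK U) Qb).injective

theorem avK_apply (g : GQ) (U : Subgroup GQ) (x : fixK U) : avK q g U x = av q g (x : Qb) := rfl

theorem avK_isNontrivial (g : GQ) (U : Subgroup GQ) : (avK q g U).IsNontrivial := by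
  refine ⟨(q : fixK U), ?_, ?_⟩
  · exact_mod_cast (Fact.out : q.Prime).ne_zero
  · rw [avK_apply]
    have h : (((q : ℕ) : fixK U) : Qb) = (q : Qb) := by push_cast; rfl
    rw [h]
    exact (av_self_lt_one q g).ne

/-- If the absolute values attached to `g` and `g'` are equivalent on the fixed field of `U`,
then `g'` lies in the double coset `U g D_q`. -/
theorem exists_eq_mul_of_isEquiv {U : Subgroup GQ} (hU : IsOpenQ U) (g g' : GQ)
    (h : (avK q g U).IsEquiv (avK q g' U)) :
    ∃ u ∈ U, ∃ d ∈ (localGaloisToGlobal q).range, g' = u * g * d := by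
  have h1 : ∀ x ∈ fixK U, x ∈ g • padicPlace q ↔ x ∈ g' • padicPlace q := by
    intro x hx
    rw [← av_le_one_iff, ← av_le_one_iff]
    have := h ⟨x, hx⟩ 1
    simpa [avK_apply] using this
  obtain ⟨ρ, hρ, hρA⟩ := Fermat.Agent.S14.H714.exists_smul_eq_of_inter_eq (F := fixK U)
    (Fact.out : q.Prime) (natCast_mem_nonunits q g) (natCast_mem_nonunits q g') h1
  rw [fixingSubgroup_fixK hU] at hρ
  refine ⟨ρ⁻¹, U.inv_mem hρ, g⁻¹ * ρ * g', ?_, by group⟩
  rw [Fermat.Agent.S55.BLocal.range_localGaloisToGlobal]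
  show g⁻¹ * ρ * g' ∈ MulAction.stabilizer GQ (padicPlace q)
  rw [MulAction.mem_stabilizer_iff, mul_smul, mul_smul, hρA, inv_smul_smul]

/-- Distinct double coset representatives give inequivalent absolute values. -/
theorem not_isEquiv_of_mem_reps {U : Subgroup GQ} (hU : IsOpenQ U) {R : Finset GQ}
    (hR : IsDoubleCosetReps U (localGaloisToGlobal q).range R) {g g' : GQ} (hg : g ∈ R)
    (hg' : g' ∈ R) (hne : g ≠ g') : ¬ (avK q g U).IsEquiv (avK q g' U) := by
  intro h
  obtain ⟨u, hu, d, hd, hgg⟩ := exists_eq_mul_of_isEquiv q hU g g' h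
  obtain ⟨r, -, hr⟩ := hR g'
  have e1 : g = r := hr g ⟨hg, u, hu, d, hd, hgg⟩
  have e2 : g' = r := hr g' ⟨hg', 1, U.one_mem, 1, Subgroup.one_mem _, by simp⟩
  exact hne (e1.trans e2.symm)

end Fermat.Agent.S55.G.Rec.WA118
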