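import Fermat.Agent.S55.G.Rec.WA118.AbsVal

/-!
# S55 / layer G / block REC, leaf G3 (weak approximation), part 5 (helper118):
the approximation step

* `exists_approx_pi` : concrete form of Mathlib's weak approximation theorem;
* `exists_scalar` : a natural number `c ≡ 1 mod p ^ M` which is `r`-adically smaller than a given
  nonzero integer;
* `exists_global_element` : an element of `K = ℚ̄^U` with prescribed absolute values at the places
  above `p` (indexed by double coset representatives) and which is a principal unit at all places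
  above `r`.
-/

set_option autoImplicit false
set_option linter.style.haveILetI false
set_option linter.unusedSectionVars false

namespace Fermat.Agent.S55.G.Rec.WA118

open Fermat.Agent.S55.G.Rec

local notation "Qb" => AlgebraicClosure ℚ
local notation "GQ" => (AlgebraicClosure ℚ ≃ₐ[ℚ] AlgebraicClosure ℚ)

/-- Concrete form of weak approximation. -/
theorem exists_approx_pi {F : Type*} [Field F] {ι : Type*} [Finite ι]
    {v : ι → AbsoluteValue F ℝ}
    (h : ∀ i, (v i).IsNontrivial) (hv : Pairwise fun i j ↦ ¬(v i).IsEquiv (v j))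
    (z : ι → F) {ε : ℝ} (hε : 0 < ε) : ∃ y : F, ∀ i, v i (y - z i) < ε := by
  classical
  have := Fintype.ofFinite ι
  have hd := AbsoluteValue.denseRange_algebraMap_pi h hv
  rw [Metric.denseRange_iff] at hd
  obtain ⟨y, hy⟩ := hd (fun i => WithAbs.toAbs (v i) (z i)) ε hε
  refine ⟨y, fun i => ?_⟩
  rw [dist_pi_lt_iff hε] at hy
  have h1 := hy i
  rw [dist_comm, dist_eq_norm] at h1
  exact h1

theorem exists_pos_le_of_finite {ι : Type*} [Finite ι] (f : ι → ℝ) (hf : ∀ i, 0 < f i) :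
    ∃ ε : ℝ, 0 < ε ∧ ∀ i, ε ≤ f i := by
  rcases isEmpty_or_nonempty ι with h | h
  · exact ⟨1, one_pos, fun i => (IsEmpty.false i).elim⟩
  · obtain ⟨i₀, hi₀⟩ := Finite.exists_min f
    exact ⟨f i₀, hf i₀, hi₀⟩

theorem exists_pos_ge_of_finite {ι : Type*} [Finite ι] (f : ι → ℝ) :
    ∃ B : ℝ, 0 < B ∧ ∀ i, f i ≤ B := by
  rcases isEmpty_or_nonempty ι with h | h
  · exact ⟨1, one_pos, fun i => (IsEmpty.false i).elim⟩
  · obtain ⟨i₀, hi₀⟩ := Finite.exists_max f
    exact ⟨max (f i₀) 1, lt_max_of_lt_right one_pos, fun i => (hi₀ i).trans (le_max_left _ _)⟩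

/-- A nonzero integer `m` has `r`-adic norm at least `r ^ (-|m|)`. -/
theorem padic_norm_int_ge (r : ℕ) [Fact r.Prime] (m : ℤ) (hm : m ≠ 0) :
    ((r : ℝ)⁻¹) ^ m.natAbs ≤ ‖(m : ℚ_[r])‖ := by
  by_contra hlt
  rw [not_le] at hlt
  have h1 : ‖(m : ℚ_[r])‖ ≤ (r : ℝ) ^ (-(m.natAbs : ℤ)) := by
    rw [zpow_neg, zpow_natCast, ← inv_pow]
    exact hlt.le
  rw [Padic.norm_int_le_pow_iff_dvd] at h1
  have h2 : r ^ m.natAbs ∣ m.natAbs := by
    have := Int.natAbs_dvd_natAbs.2 h1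
    simpa [Int.natAbs_pow] using this
  have h3 := Nat.le_of_dvd (Int.natAbs_pos.2 hm) h2
  have h4 : m.natAbs < r ^ m.natAbs := Nat.lt_pow_self (Fact.out : r.Prime).one_lt
  omega

/-- A natural number `c ≡ 1 mod p ^ M` which is `r`-adically at most as big as `m`. -/
theorem exists_scalar (p r : ℕ) [Fact p.Prime] [Fact r.Prime] (hpr : p ≠ r) (m : ℤ)
    (hm : m ≠ 0) (M : ℕ) :
    ∃ c : ℕ, ((p : ℤ) ^ M ∣ (c : ℤ) - 1) ∧ ‖(c : ℚ_[r])‖ ≤ ‖(m : ℚ_[r])‖ := by
  have hp : p.Prime := Fact.out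
  have hr : r.Prime := Fact.out
  have hcop : Nat.Coprime r (p ^ M) :=
    Nat.Coprime.pow_right M ((Nat.coprime_primes hr hp).2 (Ne.symm hpr))
  have hφ : 0 < Nat.totient (p ^ M) := Nat.totient_pos.2 (pow_pos hp.pos M)
  refine ⟨r ^ (Nat.totient (p ^ M) * m.natAbs), ?_, ?_⟩
  · have h1 : r ^ Nat.totient (p ^ M) ≡ 1 [MOD p ^ M] := Nat.ModEq.pow_totient hcop
    have h2 : r ^ (Nat.totient (p ^ M) * m.natAbs) ≡ 1 [MOD p ^ M] := by
      have := h1.pow m.natAbs
      rwa [← pow_mul, one_pow] at this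
    have h3 := (Nat.modEq_iff_dvd.1 h2.symm)
    exact_mod_cast h3
  · have h1 : ‖((r ^ (Nat.totient (p ^ M) * m.natAbs) : ℕ) : ℚ_[r])‖ =
        ((r : ℝ)⁻¹) ^ (Nat.totient (p ^ M) * m.natAbs) := by
      rw [Nat.cast_pow, norm_pow, Padic.norm_p]
    rw [h1]
    refine le_trans ?_ (padic_norm_int_ge r m hm)
    apply pow_le_pow_of_le_one
    · positivity
    · apply inv_le_one_of_one_le₀
      exact_mod_cast hr.one_lt.le
    · exact Nat.le_mul_of_pos_left _ hφ

section Global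

variable (p r : ℕ) [Fact p.Prime] [Fact r.Prime]

theorem av_pos_of_ne_zero (g : GQ) {x : Qb} (hx : x ≠ 0) : 0 < av p g x :=
  (av p g).pos hx

/-- The `p`-adic absolute value of `c - 1` when `p ^ M ∣ c - 1`. -/
theorem av_natCast_sub_one_le (g : GQ) {c M : ℕ} (h : (p : ℤ) ^ M ∣ (c : ℤ) - 1) :
    av p g ((c : Qb) - 1) ≤ ((p : ℝ)⁻¹) ^ M := by
  obtain ⟨k, hk⟩ := h
  have h1 : (c : Qb) - 1 = (p : Qb) ^ M * (k : Qb) := by
    have := congrArg (fun n : ℤ => (n : Qb)) hk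
    push_cast at this
    exact this
  rw [h1, map_mul, map_pow, av_self]
  exact mul_le_of_le_one_right (by positivity) (av_intCast_le_one p g k)

/-- **The approximation step.** -/
theorem exists_global_element {U : Subgroup GQ} (hU : IsOpenQ U) (hpr : p ≠ r)
    (Rp : Finset GQ) (hRp : IsDoubleCosetReps U (localGaloisToGlobal p).range Rp)
    (z : GQ → Qb) (hzK : ∀ g, z g ∈ fixK U) (hz0 : ∀ g, z g ≠ 0) :
    ∃ a : Qb, a ∈ fixK U ∧ a ≠ 0 ∧ (∀ g ∈ Rp, av p g a = av p g (z g)) ∧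
      ∀ h : GQ, av r h (a - 1) < 1 := by
  classical
  have hp : p.Prime := Fact.out
  have hr : r.Prime := Fact.out
  have hr0 : (r : Qb) ≠ 0 := by exact_mod_cast hr.ne_zero
  have hrK0 : (r : fixK U) ≠ 0 := by exact_mod_cast hr.ne_zero
  have hp1 : (1 : ℝ) < (p : ℝ) := by exact_mod_cast hp.one_lt
  have hr1 : (1 : ℝ) < (r : ℝ) := by exact_mod_cast hr.one_lt
  -- the family of absolute values
  let ι := {g : GQ // g ∈ Rp}
  let v : ι → AbsoluteValue (fixK U) ℝ := fun i => avK p (i : GQ) U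
  have hv1 : ∀ i, (v i).IsNontrivial := fun i => avK_isNontrivial p (i : GQ) U
  have hv2 : Pairwise fun i j ↦ ¬(v i).IsEquiv (v j) := by
    intro i j hij
    exact not_isEquiv_of_mem_reps p hU hRp i.2 j.2 (fun h => hij (Subtype.ext h))
  -- the targets
  let zK : GQ → fixK U := fun g => ⟨z g, hzK g⟩
  let tgt : ι → fixK U := fun i => (zK (i : GQ) - 1) / (r : fixK U)
  obtain ⟨ε, hε, hεle⟩ := exists_pos_le_of_finite (fun i : ι => av p (i : GQ) (z (i : GQ)))
    (fun i => av_pos_of_ne_zero p (i : GQ) (hz0 (i : GQ)))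
  obtain ⟨w, hw⟩ := exists_approx_pi hv1 hv2 tgt hε
  obtain ⟨B, hB, hBle⟩ := exists_pos_ge_of_finite (fun i : ι => av p (i : GQ) (w : Qb))
  -- the integer `m`
  have hwalg : IsAlgebraic ℤ (w : Qb) := Algebra.IsAlgebraic.isAlgebraic _
  obtain ⟨m, hm0, hmint⟩ := hwalg.exists_integral_multiple
  -- the exponent `M`
  have hpinv0 : (0 : ℝ) < (p : ℝ)⁻¹ := by positivity
  have hpinv1 : (p : ℝ)⁻¹ < 1 := inv_lt_one_of_one_lt₀ hp1
  obtain ⟨M, hM⟩ := exists_pow_lt_of_lt_one (div_pos hε hB) hpinv1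
  obtain ⟨c, hc1, hc2⟩ := exists_scalar p r hpr m hm0 M
  -- the `r`-adic condition
  have hrad : ∀ h : GQ, av r h (1 + (r : Qb) * (c : Qb) * (w : Qb) - 1) < 1 := by
    intro h
    rw [add_sub_cancel_left, map_mul, map_mul, av_self, av_natCast]
    have h1 : av r h ((m : Qb) * (w : Qb)) ≤ 1 := by
      apply av_le_one_of_isIntegral
      rwa [zsmul_eq_mul] at hmint
    rw [map_mul, av_intCast] at h1
    have h2 : ‖(c : ℚ_[r])‖ * av r h (w : Qb) ≤ 1 :=
      (mul_le_mul_of_nonneg_right hc2 ((av r h).nonneg _)).trans h1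
    have hrinv0 : (0 : ℝ) < (r : ℝ)⁻¹ := by positivity
    have hrinv1 : (r : ℝ)⁻¹ < 1 := inv_lt_one_of_one_lt₀ hr1
    calc (r : ℝ)⁻¹ * ‖(c : ℚ_[r])‖ * av r h (w : Qb)
        = (r : ℝ)⁻¹ * (‖(c : ℚ_[r])‖ * av r h (w : Qb)) := by ring
      _ ≤ (r : ℝ)⁻¹ * 1 := mul_le_mul_of_nonneg_left h2 hrinv0.le
      _ < 1 := by rw [mul_one]; exact hrinv1
  -- the element
  refine ⟨1 + (r : Qb) * (c : Qb) * (w : Qb), ?_, ?_, ?_, hrad⟩
  · exact add_mem (one_mem _) (mul_mem (mul_mem (natCast_mem _ r) (natCast_mem _ c)) w.2)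
  · intro h0
    have h1 := hrad 1
    rw [h0, zero_sub, AbsoluteValue.map_neg, map_one] at h1
    exact lt_irrefl _ h1
  · intro g hg
    apply av_eq_of_sub_lt
    have hi := hw ⟨g, hg⟩
    have hεg : ε ≤ av p g (z g) := hεle ⟨g, hg⟩
    have hBg : av p g (w : Qb) ≤ B := hBle ⟨g, hg⟩
    have hcop : p.Coprime r := (Nat.coprime_primes hp hr).2 hpr
    have hrg : av p g (r : Qb) = 1 := av_natCast_eq_one p g hcop
    have hid : 1 + (r : Qb) * (c : Qb) * (w : Qb) - z g =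
        (r : Qb) * ((c : Qb) - 1) * (w : Qb) +
          (r : Qb) * (((w - tgt ⟨g, hg⟩ : fixK U) : fixK U) : Qb) := by
      have h1 : (((w - tgt ⟨g, hg⟩ : fixK U) : fixK U) : Qb) = (w : Qb) - (z g - 1) / (r : Qb) := by
        simp only [tgt, zK]
        push_cast
        rfl
      rw [h1]
      field_simp
      ring
    rw [hid]
    refine lt_of_le_of_lt (av_add_le_max p g _ _) (max_lt ?_ ?_)
    · rw [map_mul, map_mul, hrg, one_mul]
      have h1 := av_natCast_sub_one_le p g hc1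
      have h2 : av p g ((c : Qb) - 1) * av p g (w : Qb) ≤ ((p : ℝ)⁻¹) ^ M * B :=
        mul_le_mul h1 hBg ((av p g).nonneg _) (by positivity)
      have h3 : ((p : ℝ)⁻¹) ^ M * B < ε := by
        rw [lt_div_iff₀ hB] at hM
        exact hM
      exact (h2.trans_lt h3).trans_le hεg
    · rw [map_mul, hrg, one_mul]
      exact lt_of_lt_of_le hi hεg

end Global

end Fermat.Agent.S55.G.Rec.WA118
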