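import Fermat.Agent.S55.G.Rec.Spec2
import Fermat.Agent.S55.BLocal.Range

/-!
# S55 / layer G / block REC, leaf G3 (weak approximation), part 1 (helper118):
the fixed field of an open subgroup of `G_ℚ`

For `U ≤ G_ℚ` with `IsOpenQ U` the fixed field `fixK U` is a number field, `U` is its fixing
subgroup and `GFixed U a ↔ a ∈ fixK U`.
-/

set_option autoImplicit false
set_option linter.style.haveILetI false
set_option linter.unusedSectionVars false

namespace Fermat.Agent.S55.G.Rec.WA118

open Fermat.Agent.S55.G.Rec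

local notation "Qb" => AlgebraicClosure ℚ
local notation "GQ" => (AlgebraicClosure ℚ ≃ₐ[ℚ] AlgebraicClosure ℚ)

/-- `ℚ̄ / ℚ` is Galois. -/
theorem isGalois_Qb : IsGalois ℚ Qb := by
  haveI : Algebra.IsAlgebraic ℚ Qb := AlgebraicClosure.isAlgebraic ℚ
  haveI : IsAlgClosure ℚ Qb := ⟨inferInstance, inferInstance⟩
  haveI : Normal ℚ Qb := IsAlgClosure.normal ℚ Qb
  exact isGalois_iff.mpr ⟨inferInstance, inferInstance⟩

/-- The fixed field of `U`. -/
noncomputable def fixK (U : Subgroup GQ) : IntermediateField ℚ Qb :=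
  IntermediateField.fixedField U

theorem mem_fixK_iff (U : Subgroup GQ) (x : Qb) : x ∈ fixK U ↔ ∀ u ∈ U, u x = x :=
  IntermediateField.mem_fixedField_iff U x

theorem isOpen_of_isOpenQ {U : Subgroup GQ} (hU : IsOpenQ U) : IsOpen (U : Set GQ) := by
  obtain ⟨F, hF, hFU⟩ := hU
  haveI := hF
  exact Subgroup.isOpen_mono hFU F.fixingSubgroup_isOpen

theorem isClosed_of_isOpenQ {U : Subgroup GQ} (hU : IsOpenQ U) : IsClosed (U : Set GQ) :=
  Subgroup.isClosed_of_isOpen U (isOpen_of_isOpenQ hU)

theorem fixingSubgroup_fixK {U : Subgroup GQ} (hU : IsOpenQ U) :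
    (fixK U).fixingSubgroup = U := by
  haveI := isGalois_Qb
  exact InfiniteGalois.fixingSubgroup_fixedField
    (⟨U, isClosed_of_isOpenQ hU⟩ : ClosedSubgroup GQ)

theorem finiteDimensional_fixK {U : Subgroup GQ} (hU : IsOpenQ U) :
    FiniteDimensional ℚ (fixK U) := by
  haveI := isGalois_Qb
  obtain ⟨F, hF, hFU⟩ := hU
  haveI := hF
  have hle : fixK U ≤ F := by
    have h1 : fixK U ≤ IntermediateField.fixedField F.fixingSubgroup :=
      IntermediateField.fixedField_le hFU
    rwa [InfiniteGalois.fixedField_fixingSubgroup F] at h1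
  exact FiniteDimensional.of_injective (IntermediateField.inclusion hle).toLinearMap
    (IntermediateField.inclusion hle).injective

theorem coe_smul_units (u : GQ) (a : Qbˣ) : ((u • a : Qbˣ) : Qb) = u (a : Qb) := rfl

theorem gFixed_iff (U : Subgroup GQ) (a : Qbˣ) : GFixed U a ↔ (a : Qb) ∈ fixK U := by
  rw [mem_fixK_iff]
  constructor
  · intro h u hu
    have := h u hu
    rw [← coe_smul_units, this]
  · intro h u hu
    apply Units.ext
    rw [coe_smul_units]
    exact h u hu

/-- An element of `G_ℚ` fixing `fixK U` pointwise lies in `U`. -/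
theorem mem_of_forall_fix {U : Subgroup GQ} (hU : IsOpenQ U) (σ : GQ)
    (h : ∀ x ∈ fixK U, σ x = x) : σ ∈ U := by
  rw [← fixingSubgroup_fixK hU, IntermediateField.mem_fixingSubgroup_iff]
  exact h

theorem fix_of_mem {U : Subgroup GQ} {σ : GQ} (hσ : σ ∈ U) {x : Qb} (hx : x ∈ fixK U) :
    σ x = x :=
  (mem_fixK_iff U x).1 hx σ hσ

end Fermat.Agent.S55.G.Rec.WA118
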