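import Fermat.Agent.S55.G.Rec.WA118.AbsVal
import Fermat.Agent.S55.G.Rec.VdegH707
import Fermat.Agent.S55.G.Rec.H124.ProductFormula

/-!
# S55 / layer G / block REC, leaf G3 (weak approximation), part 3 (helper118):
the completion of `K = ℚ̄^U` at the place induced by `ι_p ∘ g⁻¹`

For `V = locSub p g U`:
* `isFixedBy_emb` : the image of `K` is fixed by `V`;
* `exists_primitive` : a primitive element `α` of `K`;
* `mem_adjoin_of_isFixedBy` : the fixed field of `V` is contained in `ℚ_p(ι_p(g⁻¹ α))`;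
* `exists_emb_close` : the image of `K` is dense in the fixed field of `V`;
* `exists_zpow_of_isFixedBy`, `index_locSub_ne_zero` : discreteness of the norm on the fixed field.
-/

set_option autoImplicit false
set_option linter.style.haveILetI false
set_option linter.unusedSectionVars false

namespace Fermat.Agent.S55.G.Rec.WA118

open Fermat.Agent.S55.G.Rec

local notation "Qb" => AlgebraicClosure ℚ
local notation "GQ" => (AlgebraicClosure ℚ ≃ₐ[ℚ] AlgebraicClosure ℚ)

variable (p : ℕ) [Fact p.Prime]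

local notation "Gp" => (PadicAlgCl p ≃ₐ[ℚ_[p]] PadicAlgCl p)

/-- Ultrametric inequality for the difference. -/
theorem norm_sub_le_max_padic (x y : PadicAlgCl p) : ‖x - y‖ ≤ max ‖x‖ ‖y‖ := by
  have h := PadicAlgCl.isNonarchimedean p x (-y)
  rwa [← sub_eq_add_neg, norm_neg] at h

/-- If `‖x - y‖ < ‖y‖` then `‖x‖ = ‖y‖`. -/
theorem norm_eq_of_sub_lt_padic {x y : PadicAlgCl p} (h : ‖x - y‖ < ‖y‖) : ‖x‖ = ‖y‖ := by
  apply le_antisymm
  · have h1 := PadicAlgCl.isNonarchimedean p (x - y) y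
    rw [sub_add_cancel] at h1
    exact h1.trans (max_le h.le le_rfl)
  · by_contra hlt
    rw [not_le] at hlt
    have h1 := norm_sub_le_max_padic p x (x - y)
    rw [sub_sub_cancel] at h1
    have h2 : max ‖x‖ ‖x - y‖ < ‖y‖ := max_lt hlt h
    exact lt_irrefl _ (h1.trans_lt h2)

/-- `loc τ` fixes `g⁻¹ x` as soon as `τ` fixes `ι_p (g⁻¹ x)`. -/
theorem conj_apply_eq_of_fix (g : GQ) (τ : Gp) {x : Qb} (h : τ (emb p g x) = emb p g x) :
    (g * localGaloisToGlobal p τ * g⁻¹) x = x := by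
  have h1 : localGaloisToGlobal p τ ((g⁻¹ : GQ) x) = (g⁻¹ : GQ) x := by
    apply (padicEmbedding p).toRingHom.injective
    show padicEmbedding p _ = padicEmbedding p _
    rw [padicEmbedding_localGaloisToGlobal]
    exact h
  show g (localGaloisToGlobal p τ ((g⁻¹ : GQ) x)) = x
  rw [h1]
  exact AlgEquiv.apply_symm_apply g _

/-- `τ` fixes `ι_p (g⁻¹ x)` as soon as `g loc(τ) g⁻¹` fixes `x`. -/
theorem fix_of_conj_apply_eq (g : GQ) (τ : Gp) {x : Qb}
    (h : (g * localGaloisToGlobal p τ * g⁻¹) x = x) : τ (emb p g x) = emb p g x := by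
  show τ (padicEmbedding p ((g⁻¹ : GQ) x)) = padicEmbedding p ((g⁻¹ : GQ) x)
  rw [← padicEmbedding_localGaloisToGlobal]
  congr 1
  have h3 : g (localGaloisToGlobal p τ ((g⁻¹ : GQ) x)) = x := h
  have h4 := congrArg (g⁻¹ : GQ) h3
  rwa [show (g⁻¹ : GQ) (g (localGaloisToGlobal p τ ((g⁻¹ : GQ) x))) =
    localGaloisToGlobal p τ ((g⁻¹ : GQ) x) from AlgEquiv.symm_apply_apply g _] at h4

/-- The image of the fixed field of `U` is fixed by `locSub p g U`. -/
theorem isFixedBy_emb {U : Subgroup GQ} (g : GQ) {x : Qb} (hx : x ∈ fixK U) :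
    IsFixedBy p (locSub p g U) (emb p g x) := by
  intro τ hτ
  exact fix_of_conj_apply_eq p g τ (fix_of_mem (mem_locSub.1 hτ) hx)

/-- A primitive element of the fixed field of `U`. -/
theorem exists_primitive {U : Subgroup GQ} (hU : IsOpenQ U) :
    ∃ α : Qb, α ∈ fixK U ∧ ∀ σ : GQ, σ α = α → σ ∈ U := by
  haveI := finiteDimensional_fixK hU
  let pb : PowerBasis ℚ (fixK U) := Field.powerBasisOfFiniteOfSeparable ℚ (fixK U)
  refine ⟨(pb.gen : Qb), pb.gen.2, fun σ hσ => mem_of_forall_fix hU σ ?_⟩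
  have key : ((σ : GQ) : Qb →ₐ[ℚ] Qb).comp (fixK U).val = (fixK U).val :=
    pb.algHom_ext hσ
  intro x hx
  exact DFunLike.congr_fun key ⟨x, hx⟩

/-- The fixing subgroup of `ℚ_p(ι_p(g⁻¹ α))` is contained in `locSub p g U`. -/
theorem fixingSubgroup_adjoin_le {U : Subgroup GQ} (g : GQ) {α : Qb}
    (hα : ∀ σ : GQ, σ α = α → σ ∈ U) :
    (IntermediateField.adjoin ℚ_[p] {emb p g α}).fixingSubgroup ≤ locSub p g U := by
  intro τ hτ
  rw [mem_locSub]
  apply hα
  apply conj_apply_eq_of_fix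
  exact (IntermediateField.mem_fixingSubgroup_iff _ _).1 hτ _
    (IntermediateField.mem_adjoin_simple_self _ _)

/-- An element fixed by `locSub p g U` lies in `ℚ_p(ι_p(g⁻¹ α))`. -/
theorem mem_adjoin_of_isFixedBy {U : Subgroup GQ} (g : GQ) {α : Qb}
    (hα : ∀ σ : GQ, σ α = α → σ ∈ U) {x : PadicAlgCl p}
    (hx : IsFixedBy p (locSub p g U) x) :
    x ∈ IntermediateField.adjoin ℚ_[p] {emb p g α} := by
  haveI := Fermat.Agent.S55.BLocal.isGalois_padicAlgCl p
  rw [← InfiniteGalois.fixedField_fixingSubgroup (IntermediateField.adjoin ℚ_[p] {emb p g α}),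
    IntermediateField.mem_fixedField_iff]
  intro τ hτ
  exact hx τ (fixingSubgroup_adjoin_le p g hα hτ)

/-- The closure of the image of `K` in `ℚ̄_p`, as a `ℚ_p`-subalgebra. -/
noncomputable def closureAlg (g : GQ) (U : Subgroup GQ) : Subalgebra ℚ_[p] (PadicAlgCl p) :=
  { (Subring.topologicalClosure
      ((emb p g).comp (algebraMap (fixK U) Qb)).range).toSubsemiring with
    algebraMap_mem' := by
      intro c
      show algebraMap ℚ_[p] (PadicAlgCl p) c ∈
        closure (((emb p g).comp (algebraMap (fixK U) Qb)).range : Set (PadicAlgCl p))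
      rw [Metric.mem_closure_iff]
      intro ε hε
      obtain ⟨c', hc'⟩ := Padic.rat_dense p c hε
      refine ⟨(c' : PadicAlgCl p), ⟨(c' : fixK U), ?_⟩, ?_⟩
      · simp
      · rw [dist_eq_norm]
        have h1 : algebraMap ℚ_[p] (PadicAlgCl p) c - (c' : PadicAlgCl p) =
            algebraMap ℚ_[p] (PadicAlgCl p) (c - (c' : ℚ_[p])) := by
          rw [map_sub, map_ratCast]
        rw [h1]
        have h2 := PadicAlgCl.norm_extends p (c - (c' : ℚ_[p]))
        rw [show ((c - (c' : ℚ_[p]) : ℚ_[p]) : PadicAlgCl p) =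
          algebraMap ℚ_[p] (PadicAlgCl p) (c - (c' : ℚ_[p])) from rfl] at h2
        rw [h2]
        exact hc' }

theorem mem_closureAlg_iff (g : GQ) (U : Subgroup GQ) (x : PadicAlgCl p) :
    x ∈ closureAlg p g U ↔
      x ∈ closure (((emb p g).comp (algebraMap (fixK U) Qb)).range : Set (PadicAlgCl p)) :=
  Iff.rfl

theorem emb_mem_closureAlg (g : GQ) {U : Subgroup GQ} {y : Qb} (hy : y ∈ fixK U) :
    emb p g y ∈ closureAlg p g U := by
  rw [mem_closureAlg_iff]
  exact subset_closure ⟨⟨y, hy⟩, rfl⟩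

/-- **Density**: the image of `K` is dense in the fixed field of `locSub p g U`. -/
theorem exists_emb_close {U : Subgroup GQ} (hU : IsOpenQ U) (g : GQ) {x : PadicAlgCl p}
    (hx : IsFixedBy p (locSub p g U) x) {ε : ℝ} (hε : 0 < ε) :
    ∃ y : Qb, y ∈ fixK U ∧ ‖emb p g y - x‖ < ε := by
  obtain ⟨α, hαK, hα⟩ := exists_primitive hU
  have h1 : x ∈ IntermediateField.adjoin ℚ_[p] {emb p g α} := mem_adjoin_of_isFixedBy p g hα hx
  have halg : IsAlgebraic ℚ_[p] (emb p g α) := Algebra.IsAlgebraic.isAlgebraic _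
  have h2 : x ∈ Algebra.adjoin ℚ_[p] {emb p g α} := by
    rw [← IntermediateField.adjoin_simple_toSubalgebra_of_isAlgebraic halg]
    exact h1
  have h3 : Algebra.adjoin ℚ_[p] {emb p g α} ≤ closureAlg p g U := by
    apply Algebra.adjoin_le
    intro z hz
    rw [Set.mem_singleton_iff] at hz
    rw [hz]
    exact emb_mem_closureAlg p g hαK
  have h4 : x ∈ closureAlg p g U := h3 h2
  rw [mem_closureAlg_iff, Metric.mem_closure_iff] at h4
  obtain ⟨b, ⟨y, rfl⟩, hb⟩ := h4 ε hε
  refine ⟨(y : Qb), y.2, ?_⟩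
  rw [dist_eq_norm, ← norm_neg, neg_sub] at hb
  exact hb

/-- The index of `locSub p g U` is finite. -/
theorem index_locSub_ne_zero {U : Subgroup GQ} (hU : IsOpenQ U) (g : GQ) :
    (locSub p g U).index ≠ 0 :=
  (Fermat.Agent.S55.G.Rec.H124.finiteIndex_of_isOpenL124 p
    (Fermat.Agent.S55.G.Rec.H124.isOpenL_locSub124 p hU g)).index_ne_zero

/-- **Discreteness**: the norm of a nonzero fixed element is, up to a fixed power, a power of
`p`. -/
theorem exists_zpow_of_isFixedBy (V : Subgroup Gp) {x : PadicAlgCl p} (hx : IsFixedBy p V x)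
    (hx0 : x ≠ 0) : ∃ k : ℤ, ‖x‖ ^ V.index = (p : ℝ) ^ k := by
  have h := Fermat.Agent.S55.G.Rec.VdegH707.exists_zpow p V (Units.mk0 x hx0) (by
    intro τ hτ
    apply Units.ext
    exact hx τ hτ)
  simpa using h

end Fermat.Agent.S55.G.Rec.WA118
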