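import Fermat.Agent.S55.G.Rec.WA118.Unif
import Fermat.Agent.S55.G.Rec.WA118.Approx

/-!
# S55 / layer G / block REC, leaf G3 : weak approximation (helper118)

`weakApprox : WeakApproxSpec` : for an open subgroup `U ≤ G_ℚ` with fixed field `K`, primes
`p ≠ r`, representatives `Rp` of the places of `K` above `p` and prescribed valuations
`j : Rp → ℤ`, there is `a ∈ Kˣ` with `ord_v (a) = j v` at the places above `p` and which is a
principal unit at every place above `r`.

Proof: `K` has global uniformizers `t_g` at the places above `p` (`exists_uniformizer`: the norm on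
the completion is discrete and `K` is dense in it); Mathlib's weak approximation theorem for the
pairwise inequivalent absolute values `‖ι_p (g⁻¹ ·)‖`, `g ∈ Rp`, gives `w ∈ K` with
`1 + r w` close to `t_g ^ (j g)`; multiplying `w` by a suitable power `c` of `r` with
`c ≡ 1 mod p ^ M` makes `c w` integral at the places above `r` without destroying the `p`-adic
approximation, and `a = 1 + r c w`.
-/

set_option autoImplicit false
set_option linter.style.haveILetI false
set_option linter.unusedSectionVars false

namespace Fermat.Agent.S55.G.Rec.WA118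

open Fermat.Agent.S55.G.Rec

local notation "Qb" => AlgebraicClosure ℚ
local notation "GQ" => (AlgebraicClosure ℚ ≃ₐ[ℚ] AlgebraicClosure ℚ)

/-- **Leaf (G3)** : weak approximation. -/
theorem weakApprox : WeakApproxSpec := by
  intro U hU p r _ _ hpr Rp hRp j
  classical
  choose t htK ht0 htU using fun g : GQ => exists_uniformizer p hU g
  have hzK : ∀ g, t g ^ (j g) ∈ fixK U := fun g => zpow_mem (htK g) (j g)
  have hz0 : ∀ g, t g ^ (j g) ≠ 0 := fun g => zpow_ne_zero (j g) (ht0 g)
  obtain ⟨a, haK, ha0, hap, har⟩ :=
    exists_global_element p r hU hpr Rp hRp (fun g => t g ^ (j g)) hzK hz0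
  refine ⟨Units.mk0 a ha0, (gFixed_iff U _).2 haK, ?_, ?_⟩
  · intro g hg
    have hπ0 : emb p g (t g) ≠ 0 := fun h => ht0 g ((map_eq_zero (emb p g)).1 h)
    refine ⟨Units.mk0 (emb p g (t g)) hπ0,
      (Units.mk0 (emb p g (t g)) hπ0 ^ (j g))⁻¹ * locPushMul p g (Units.mk0 a ha0),
      htU g, ?_, ?_⟩
    · have h1 : ‖emb p g a‖ = ‖emb p g (t g)‖ ^ (j g) := by
        have := hap g hg
        rw [av_apply, av_apply, map_zpow₀, norm_zpow] at this
        exact this
      rw [Units.val_mul, norm_mul, Units.val_inv_eq_inv_val, norm_inv, Units.val_zpow_eq_zpow_val,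
        norm_zpow, Units.val_mk0, locPushMul_coe_eq_emb, Units.val_mk0, h1]
      apply inv_mul_cancel₀
      exact zpow_ne_zero _ (norm_ne_zero_iff.2 hπ0)
    · rw [mul_inv_cancel_left]
  · intro g
    rw [locPushMul_coe_eq_emb, Units.val_mk0]
    have h1 : emb r g a - 1 = emb r g (a - 1) := by rw [map_sub, map_one]
    rw [h1]
    exact har g

end Fermat.Agent.S55.G.Rec.WA118
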