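import Fermat.Agent.S55.G.Rec.WA118.Local

/-!
# S55 / layer G / block REC, leaf G3 (weak approximation), part 4 (helper118):
global uniformizers

`exists_uniformizer` : for every `g` there is `t ∈ K = ℚ̄^U`, `t ≠ 0`, whose image
`ι_p (g⁻¹ t)` is a uniformizer of the fixed field of `locSub p g U`.
-/

set_option autoImplicit false
set_option linter.style.haveILetI false
set_option linter.unusedSectionVars false

namespace Fermat.Agent.S55.G.Rec.WA118

open Fermat.Agent.S55.G.Rec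

local notation "Qb" => AlgebraicClosure ℚ
local notation "GQ" => (AlgebraicClosure ℚ ≃ₐ[ℚ] AlgebraicClosure ℚ)

variable (p : ℕ) [Fact p.Prime]

local notation "Gp" => (PadicAlgCl p ≃ₐ[ℚ_[p]] PadicAlgCl p)

theorem natCast_mem_fixK (U : Subgroup GQ) (n : ℕ) : (n : Qb) ∈ fixK U := natCast_mem _ n

theorem one_lt_prime_real : (1 : ℝ) < (p : ℝ) := by
  exact_mod_cast (Fact.out : p.Prime).one_lt

theorem norm_emb_prime (g : GQ) : ‖emb p g (p : Qb)‖ = (p : ℝ)⁻¹ := av_self p g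

/-- **Global uniformizers.** -/
theorem exists_uniformizer {U : Subgroup GQ} (hU : IsOpenQ U) (g : GQ) :
    ∃ t : Qb, t ∈ fixK U ∧ t ≠ 0 ∧ IsUniformizer p (locSub p g U) (emb p g t) := by
  classical
  have hp1 : (1 : ℝ) < (p : ℝ) := one_lt_prime_real p
  have hp0 : (0 : ℝ) < (p : ℝ) := zero_lt_one.trans hp1
  set N : ℕ := (locSub p g U).index with hN
  have hN0 : N ≠ 0 := index_locSub_ne_zero p hU g
  let P : ℕ → Prop := fun k =>
    0 < k ∧ ∃ y : Qb, y ∈ fixK U ∧ y ≠ 0 ∧ ‖emb p g y‖ ^ N = (p : ℝ) ^ (-(k : ℤ))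
  have hP : ∃ k, P k := by
    refine ⟨N, Nat.pos_of_ne_zero hN0, (p : Qb), natCast_mem_fixK U p, ?_, ?_⟩
    · exact_mod_cast (Fact.out : p.Prime).ne_zero
    · rw [norm_emb_prime, zpow_neg, zpow_natCast, inv_pow]
  obtain ⟨hk0, t, htK, ht0, htn⟩ := Nat.find_spec hP
  have hmin : ∀ k, P k → Nat.find hP ≤ k := fun k hk => Nat.find_min' hP hk
  set k₀ := Nat.find hP with hk₀
  have hemb0 : emb p g t ≠ 0 := fun h => ht0 ((map_eq_zero (emb p g)).1 h)
  have hlt1 : (p : ℝ) ^ (-(k₀ : ℤ)) < 1 := by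
    apply zpow_lt_one_of_neg₀ hp1
    omega
  refine ⟨t, htK, ht0, isFixedBy_emb p g htK, hemb0, ?_, ?_⟩
  · by_contra hge
    rw [not_lt] at hge
    have : 1 ≤ ‖emb p g t‖ ^ N := one_le_pow₀ hge
    rw [htn] at this
    exact absurd this (not_le.2 hlt1)
  · intro x hx hx1
    by_cases hx0 : x = 0
    · rw [hx0, norm_zero]
      exact norm_nonneg _
    have hxpos : 0 < ‖x‖ := norm_pos_iff.2 hx0
    obtain ⟨y, hyK, hy⟩ := exists_emb_close p hU g hx hxpos
    have hyx : ‖emb p g y‖ = ‖x‖ := norm_eq_of_sub_lt_padic p hy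
    have hy0 : y ≠ 0 := by
      rintro rfl
      rw [map_zero, norm_zero] at hyx
      exact hxpos.ne hyx
    obtain ⟨k, hk⟩ := exists_zpow_of_isFixedBy p (locSub p g U) hx hx0
    rw [← hN] at hk
    have hxN : ‖x‖ ^ N < 1 := pow_lt_one₀ (norm_nonneg _) hx1 hN0
    have hkneg : k < 0 := by
      by_contra hk'
      rw [not_lt] at hk'
      have : (1 : ℝ) ≤ (p : ℝ) ^ k := one_le_zpow₀ hp1.le hk'
      rw [← hk] at this
      exact absurd this (not_le.2 hxN)
    have hkabs : (k.natAbs : ℤ) = -k := by omega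
    have hPk : P k.natAbs := by
      refine ⟨by omega, y, hyK, hy0, ?_⟩
      rw [hyx, hk, hkabs, neg_neg]
    have hle : k₀ ≤ k.natAbs := hmin _ hPk
    have h1 : ‖x‖ ^ N ≤ ‖emb p g t‖ ^ N := by
      rw [htn, hk]
      apply zpow_le_zpow_right₀ hp1.le
      omega
    exact (pow_le_pow_iff_left₀ (norm_nonneg _) (norm_nonneg _) hN0).1 h1

end Fermat.Agent.S55.G.Rec.WA118
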